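import Fermat.Agent.LangTrotterGRH.Classes
import Mathlib.NumberTheory.Bertrand

/-!
# The choice of the level

Counts at most `3 li N / l + B l ^ k (1 + log l) (√N log ^ 4 N + 1)` for every large prime `l` are
`O (N ^ (1 - e) log ^ 5 N)`, `e = 1 / (2 (k + 1))`: take `l` within a factor four of `N ^ e`.
-/

set_option autoImplicit false
set_option linter.style.haveILetI false

noncomputable section

open Filter
open FA.ArtinHooley (logInt)
open scoped Topology

namespace FA.LangTrotterGRH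

theorem logInt_le {N : ℕ} (hN : 2 ≤ N) : logInt N ≤ 2 * N := by
  have hN2 : (2 : ℝ) ≤ N := by exact_mod_cast hN
  have h := intervalIntegral.norm_integral_le_of_norm_le_const (a := (2 : ℝ)) (b := (N : ℝ))
    (f := fun t => 1 / Real.log t) (C := 2) fun t ht => ?_
  · rw [abs_of_nonneg (by linarith : (0 : ℝ) ≤ N - 2)] at h
    have := (abs_le.1 h).2
    rw [logInt]
    linarith
  · rw [Set.uIoc_of_le hN2] at ht
    have h2 : Real.log 2 ≤ Real.log t := Real.log_le_log two_pos ht.1.le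
    have := Real.log_two_gt_d9
    rw [Real.norm_eq_abs, abs_of_nonneg (one_div_nonneg.2 (by linarith)),
      div_le_iff₀ (by linarith)]
    linarith

/-- **The optimum.** -/
theorem exists_bound_of_levels {f : ℕ → ℕ} (hf : ∀ N, f N ≤ N) {k : ℕ} {e B : ℝ} (he0 : 0 < e)
    (he : e * (k + 1) = 1 / 2) (hB : 0 ≤ B) {m : ℕ}
    (h : ∀ l : ℕ, l.Prime → m < l → ∀ N : ℕ, 2 ≤ N →
      (f N : ℝ) ≤ 3 / (l : ℝ) * logInt N +
        B * ((l : ℝ) ^ k * (1 + Real.log l) * (√(N : ℝ) * Real.log N ^ 4 + 1))) :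
    ∃ C : ℝ, ∀ N : ℕ, 2 ≤ N → (f N : ℝ) ≤ C * ((N : ℝ) ^ (1 - e) * Real.log N ^ 5) := by
  obtain ⟨N₀, hN₀⟩ := eventually_atTop.1 ((((tendsto_rpow_atTop he0).comp
    tendsto_natCast_atTop_atTop).eventually_ge_atTop ((m : ℝ) + 1)).and
      ((Real.tendsto_log_atTop.comp tendsto_natCast_atTop_atTop).eventually_ge_atTop 4))
  have hl2 := Real.log_two_gt_d9
  obtain ⟨C₀, hC₀⟩ : ∃ C₀ : ℝ, C₀ = (N₀ : ℝ) / Real.log 2 ^ 5 := ⟨_, rfl⟩
  refine ⟨max C₀ (6 + B * (4 ^ k * 4)), fun N hN => ?_⟩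
  have hN1 : (1 : ℝ) ≤ N := Nat.one_le_cast.2 (by omega)
  have hN0 : (0 : ℝ) < N := by linarith
  have he1 : e ≤ 1 := by
    have : (0 : ℝ) ≤ k := Nat.cast_nonneg k
    nlinarith
  rcases lt_or_ge N N₀ with hsmall | hlarge
  · refine (Nat.cast_le.2 ((hf N).trans hsmall.le)).trans (le_trans ?_
      (mul_le_mul_of_nonneg_right (le_max_left _ _) (by
        have := Real.log_natCast_nonneg N
        positivity)))
    rw [hC₀, div_mul_eq_mul_div, le_div_iff₀ (by positivity)]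
    refine mul_le_mul_of_nonneg_left ?_ (Nat.cast_nonneg _)
    refine le_trans ?_ (le_mul_of_one_le_left (by
      have := Real.log_natCast_nonneg N
      positivity) (Real.one_le_rpow hN1 (by linarith)))
    exact pow_le_pow_left₀ (by linarith) (Real.log_le_log two_pos (by exact_mod_cast hN)) 5
  obtain ⟨hy, hL⟩ := hN₀ N hlarge
  simp only [Function.comp_apply] at hy hL
  obtain ⟨y, hydef⟩ : ∃ y, y = ⌈(N : ℝ) ^ e⌉₊ := ⟨_, rfl⟩
  have hy1 : (N : ℝ) ^ e ≤ y := hydef ▸ Nat.le_ceil _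
  have hym : m < y := by
    have : (m : ℝ) < y := by linarith
    exact_mod_cast this
  obtain ⟨l, hl, hyl, hly⟩ := Nat.exists_prime_lt_and_le_two_mul y (by omega)
  have hNe : 1 ≤ (N : ℝ) ^ e := Real.one_le_rpow hN1 he0.le
  have hl4 : (l : ℝ) ≤ 4 * (N : ℝ) ^ e := by
    have h1 := Nat.ceil_lt_add_one (show 0 ≤ (N : ℝ) ^ e by positivity)
    rw [← hydef] at h1
    have h2 : (l : ℝ) ≤ 2 * y := by exact_mod_cast hly
    linarith
  have hlge : (N : ℝ) ^ e ≤ l := hy1.trans (Nat.cast_le.2 hyl.le)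
  have hlog : 1 + Real.log l ≤ 2 * Real.log N := by
    have h1 : Real.log l ≤ Real.log 4 + e * Real.log N := by
      refine (Real.log_le_log (by exact_mod_cast hl.pos) hl4).trans (le_of_eq ?_)
      rw [Real.log_mul (by norm_num) (by positivity), Real.log_rpow hN0]
    have h4 : Real.log 4 ≤ 3 := by
      linarith [Real.log_le_sub_one_of_pos (show (0 : ℝ) < 4 by norm_num)]
    have := mul_le_of_le_one_left (Real.log_natCast_nonneg N) he1
    linarith
  obtain ⟨L, hLdef⟩ : ∃ L, L = Real.log (N : ℝ) := ⟨_, rfl⟩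
  rw [← hLdef] at hL hlog ⊢
  have hs1 : 1 ≤ √(N : ℝ) := Real.one_le_sqrt.2 hN1
  have hR : √(N : ℝ) * L ^ 4 + 1 ≤ 2 * (√(N : ℝ) * L ^ 4) := by
    linarith [one_le_mul_of_one_le_of_one_le hs1 (one_le_pow₀ (show (1 : ℝ) ≤ L by linarith)
      (n := 4))]
  have hmain : 3 / (l : ℝ) * logInt N ≤ 6 * ((N : ℝ) ^ (1 - e) * L ^ 5) := by
    have h1 : 3 / (l : ℝ) * logInt N ≤ 3 / (N : ℝ) ^ e * (2 * N) := by
      refine mul_le_mul (div_le_div_of_nonneg_left (by norm_num) (by positivity) hlge)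
        (logInt_le hN) (FA.ArtinHooley.logInt_nonneg (by exact_mod_cast hN)) (by positivity)
    refine h1.trans (le_of_eq_of_le ?_ (mul_le_mul_of_nonneg_left
      (le_mul_of_one_le_right (by positivity) (one_le_pow₀ (show (1 : ℝ) ≤ L by linarith)))
      (by norm_num)))
    rw [Real.rpow_sub hN0, Real.rpow_one]
    ring
  have herr : B * ((l : ℝ) ^ k * (1 + Real.log l) * (√(N : ℝ) * L ^ 4 + 1)) ≤
      B * (4 ^ k * 4) * ((N : ℝ) ^ (1 - e) * L ^ 5) := by
    rw [mul_assoc B]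
    refine mul_le_mul_of_nonneg_left ?_ hB
    calc (l : ℝ) ^ k * (1 + Real.log l) * (√(N : ℝ) * L ^ 4 + 1)
        ≤ (4 * (N : ℝ) ^ e) ^ k * (2 * L) * (2 * (√(N : ℝ) * L ^ 4)) := by
          have := Real.log_natCast_nonneg l
          gcongr
      _ = 4 ^ k * 4 * ((((N : ℝ) ^ e) ^ k * √(N : ℝ)) * L ^ 5) := by rw [mul_pow]; ring
      _ = _ := by
          rw [← Real.rpow_natCast ((N : ℝ) ^ e) k, ← Real.rpow_mul hN0.le, Real.sqrt_eq_rpow,
            ← Real.rpow_add hN0, show e * (k : ℝ) + 1 / 2 = 1 - e by linarith]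
  have h1 := h l hl (hym.trans hyl) N hN
  rw [← hLdef] at h1
  have h2 : (6 + B * (4 ^ k * 4)) * ((N : ℝ) ^ (1 - e) * L ^ 5) ≤
      max C₀ (6 + B * (4 ^ k * 4)) * ((N : ℝ) ^ (1 - e) * L ^ 5) := by
    refine mul_le_mul_of_nonneg_right (le_max_right _ _) ?_
    have : 0 ≤ L := by linarith
    positivity
  linarith

end FA.LangTrotterGRH

end
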