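import Fermat.Agent.CyclicReductions.Count
import Fermat.Agent.TraceDistribution.Counts
import Mathlib.LinearAlgebra.Matrix.GeneralLinearGroup.Basic

/-!
# The classes of given trace in `GL₂` and of trace zero in `PGL₂`

Over `𝔽_l` at most `l ^ 3` invertible matrices have a given trace, a share at most `3 / l`; trace
zero is invariant under scalars and leaves a class of at most `l ^ 2` elements in `PGL₂`, of the
same share. The same holds of Frobenius elements when Galois is onto.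
-/

set_option autoImplicit false
set_option linter.style.haveILetI false

noncomputable section

open Matrix Finset WeierstrassCurve FA.Frob
open FA.ArtinHooley (logInt)
open FA.CyclicRed (imageShare AllFieldsRH badPrimes)
open scoped Classical WeierstrassCurve.Affine

local notation "Qb" => AlgebraicClosure ℚ
local notation "GQ" => AlgebraicClosure ℚ ≃ₐ[ℚ] AlgebraicClosure ℚ

namespace FA.LangTrotterGRH

theorem imageShare_of_surjective {G : Type} [Group G] {ρ : GQ →* G}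
    (hρ : Function.Surjective ρ) (X : Set G) :
    imageShare ρ X = (Nat.card X : ℝ) / Nat.card G ∧ Nat.card ρ.range = Nat.card G := by
  have h : ρ.range = ⊤ := MonoidHom.range_eq_top.2 hρ
  obtain ⟨e, he⟩ : ∃ e : ρ.range ≃ G, ∀ g, e g = (g : G) :=
    ⟨((MulEquiv.subgroupCongr h).trans Subgroup.topEquiv).toEquiv, fun g => rfl⟩
  refine ⟨?_, Nat.card_congr e⟩
  rw [imageShare, Nat.card_congr e]
  congr 2
  exact Nat.card_congr (e.subtypeEquiv fun g => by rw [he])

variable {l : ℕ} [hl : Fact l.Prime]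

/-- The matrices of trace `t`. -/
def traceClass (t : ZMod l) : Set (GL (Fin 2) (ZMod l)) :=
  {g | (g : Matrix (Fin 2) (Fin 2) (ZMod l)).trace = t}

theorem traceClass_conj {t : ZMod l} : ∀ g ∈ traceClass t, ∀ x, x * g * x⁻¹ ∈ traceClass t :=
  fun g hg x => by
    show ((x * g * x⁻¹ : GL (Fin 2) (ZMod l)) : Matrix (Fin 2) (Fin 2) (ZMod l)).trace = t
    rw [Units.val_mul, Units.val_mul, trace_units_conj]
    exact hg

theorem natCard_traceClass_le (t : ZMod l) : Nat.card (traceClass t) ≤ l ^ 3 := by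
  refine (Nat.card_le_card_of_injective (fun g : traceClass t =>
    ((g.1 : Matrix (Fin 2) (Fin 2) (ZMod l)) 0 0, (g.1 : Matrix (Fin 2) (Fin 2) (ZMod l)) 0 1,
      (g.1 : Matrix (Fin 2) (Fin 2) (ZMod l)) 1 0)) fun g g' e => ?_).trans (le_of_eq ?_)
  · simp only [Prod.mk.injEq] at e
    obtain ⟨e1, e2, e3⟩ := e
    have h := g.2
    have h' := g'.2
    change _ = t at h h'
    rw [trace_fin_two] at h h'
    refine Subtype.ext (Units.ext (Matrix.ext fun i j => ?_))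
    fin_cases i <;> fin_cases j
    exacts [e1, e2, e3, add_left_cancel (h.trans (e1 ▸ h'.symm))]
  · rw [Nat.card_prod, Nat.card_prod, Nat.card_zmod]
    ring

theorem pow_four_le_natCard_gl :
    3 * (l : ℝ) ^ 4 ≤ 8 * (Nat.card (GL (Fin 2) (ZMod l)) : ℝ) := by
  have h2 : (2 : ℝ) ≤ l := Nat.ofNat_le_cast.2 hl.out.two_le
  rw [FA.TraceDist.card_gl2, ZMod.card, Nat.cast_mul,
    Nat.cast_sub (Nat.one_le_pow _ _ hl.out.pos),
    Nat.cast_sub (Nat.le_self_pow two_ne_zero l)]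
  push_cast
  nlinarith [mul_le_mul h2 h2 (by norm_num) (by linarith),
    pow_nonneg (show (0 : ℝ) ≤ l by linarith) 3]

/-- The projective group. -/
abbrev Proj (l : ℕ) : Type := GL (Fin 2) (ZMod l) ⧸ Subgroup.center (GL (Fin 2) (ZMod l))

/-- The projective class of trace zero. -/
def projZero (l : ℕ) : Set (Proj l) :=
  (QuotientGroup.mk' _) '' {g : GL (Fin 2) (ZMod l) |
    (g : Matrix (Fin 2) (Fin 2) (ZMod l)).trace = 0}

theorem mk_mem_projZero_iff (g : GL (Fin 2) (ZMod l)) :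
    QuotientGroup.mk' _ g ∈ projZero l ↔ g ∈ traceClass (0 : ZMod l) := by
  refine ⟨?_, fun h => ⟨g, h, rfl⟩⟩
  rintro ⟨g₀, hg₀, e⟩
  obtain ⟨z, hz, rfl⟩ := (QuotientGroup.mk'_eq_mk' _).1 e
  rw [GeneralLinearGroup.center_eq_range_scalar] at hz
  obtain ⟨u, rfl⟩ := hz
  show ((g₀ * GeneralLinearGroup.scalar (Fin 2) u : GL (Fin 2) (ZMod l)) :
    Matrix (Fin 2) (Fin 2) (ZMod l)).trace = 0
  rw [Units.val_mul, GeneralLinearGroup.coe_scalar, Matrix.scalar_apply,
    ← Matrix.smul_one_eq_diagonal, Matrix.mul_smul, Matrix.mul_one, Matrix.trace_smul,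
    show Matrix.trace (g₀ : Matrix (Fin 2) (Fin 2) (ZMod l)) = 0 from hg₀, smul_zero]

theorem projZero_conj : ∀ g ∈ projZero l, ∀ x, x * g * x⁻¹ ∈ projZero l := by
  intro g hg x
  obtain ⟨g₀, rfl⟩ := QuotientGroup.mk'_surjective _ g
  obtain ⟨x₀, rfl⟩ := QuotientGroup.mk'_surjective _ x
  rw [← map_inv, ← map_mul, ← map_mul, mk_mem_projZero_iff]
  exact traceClass_conj g₀ ((mk_mem_projZero_iff g₀).1 hg) x₀

/-- The class has at most `l ^ 2` elements and share at most `3 / l`. -/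
theorem natCard_projZero_le :
    Nat.card (projZero l) ≤ l ^ 2 ∧
      (Nat.card (projZero l) : ℝ) / Nat.card (Proj l) ≤ 3 / (l : ℝ) := by
  have hc : Nat.card (Subgroup.center (GL (Fin 2) (ZMod l))) = l - 1 := by
    rw [GeneralLinearGroup.center_eq_range_scalar, ← ZMod.card_units l, ← Nat.card_eq_fintype_card]
    refine (Nat.card_congr (MonoidHom.ofInjective
      (f := GeneralLinearGroup.scalar (Fin 2) (R := ZMod l)) fun u v e => ?_).toEquiv).symm
    refine Units.ext ?_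
    have h0 := Units.ext_iff.1 e
    rw [GeneralLinearGroup.coe_scalar, GeneralLinearGroup.coe_scalar] at h0
    exact Matrix.scalar_inj.1 h0
  have hX : Nat.card (projZero l) * (l - 1) = l ^ 2 * (l - 1) := by
    have e : Nat.card {M : GL (Fin 2) (ZMod l) // M.val.trace = 0} = l ^ 2 * (l - 1) := by
      rw [FA.TraceDist.card_trace_zero, ZMod.card]
    rw [← e, ← hc, mul_comm, ← Nat.card_prod, ← Nat.card_congr
      (QuotientGroup.preimageMkEquivSubgroupProdSet _ (projZero l))]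
    exact Nat.card_congr (Equiv.subtypeEquivRight fun g => mk_mem_projZero_iff g)
  have hl1 : 0 < l - 1 := by have := hl.out.two_le; omega
  have hX' := Nat.eq_of_mul_eq_mul_right hl1 hX
  refine ⟨hX'.le, ?_⟩
  have hG : (Nat.card (Proj l) : ℝ) * ((l : ℝ) - 1) = Nat.card (GL (Fin 2) (ZMod l)) := by
    rw [Subgroup.card_eq_card_quotient_mul_card_subgroup (Subgroup.center (GL (Fin 2) (ZMod l))),
      hc, Nat.cast_mul, Nat.cast_sub hl.out.one_le, Nat.cast_one]
  have h2 : (2 : ℝ) ≤ l := Nat.ofNat_le_cast.2 hl.out.two_le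
  have hpos : (0 : ℝ) < Nat.card (Proj l) := Nat.cast_pos.2 Nat.card_pos
  rw [hX', div_le_div_iff₀ hpos (by linarith)]
  push_cast
  have h4 := pow_four_le_natCard_gl (l := l)
  rw [← hG] at h4
  refine le_of_mul_le_mul_right ?_ (show (0 : ℝ) < l - 1 by linarith)
  nlinarith [pow_nonneg (show (0 : ℝ) ≤ l by linarith) 3,
    pow_nonneg (show (0 : ℝ) ≤ l by linarith) 4]

/-! ### The counts at one level -/

variable (W : WeierstrassCurve ℤ) [(ratCurve W).IsElliptic]

/-- The good primes `p ≤ N` with `a_p ≡ t` modulo `l`. -/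
def congCount (l : ℕ) (t : ℤ) (N : ℕ) : Finset ℕ :=
  (Icc 1 N).filter fun p => p.Prime ∧ (p ∉ badPrimes W ∧ (W.apOfModel p : ZMod l) = (t : ZMod l))

theorem count_le {A : ℝ} (hA : 0 ≤ A)
    (hcount : ∀ {G : Type} [Group G] [Finite G] (ρ : GQ →* G), IsOpen (ρ.ker : Set GQ) →
      AllFieldsRH → ∀ S : Finset ℕ, (∀ p ∈ S, p.Prime) →
      (∀ p : ℕ, p.Prime → p ∉ S → ∀ B : ValuationSubring Qb, B.LiesOverPrime p →
        B.inertiaSubgroupIn ℚ ≤ ρ.ker) →
      ∀ X : Set G, (∀ g ∈ X, ∀ x, x * g * x⁻¹ ∈ X) → ∀ P : ℕ → Prop,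
      (∀ p : ℕ, p.Prime → p ∉ S → ∀ B : ValuationSubring Qb, B.LiesOverPrime p →
        ∀ σ : GQ, B.IsFrobeniusAt σ p → (P p ↔ ρ σ ∈ X)) →
      ∀ N : ℕ, 2 ≤ N →
      |((((Icc 1 N).filter fun p => p.Prime ∧ P p).card : ℕ) : ℝ) - imageShare ρ X * logInt N| ≤
        A * (imageShare ρ X * Nat.card ρ.range) *
          (2 + Real.log (Nat.card ρ.range) + ∑ p ∈ S, Real.log p) * (√N * Real.log N ^ 4) +
        S.card)
    (hΔ : W.Δ ≠ 0) (hGRH : AllFieldsRH) {G : Type} [Group G] [Finite G]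
    (π : GL (Fin 2) (ZMod l) →* G) (hπ : Function.Surjective π)
    (hsurj : Function.Surjective (FA.TraceDist.glLevel W l)) {X : Set G}
    (hX : ∀ g ∈ X, ∀ x, x * g * x⁻¹ ∈ X) {t : ℤ}
    (hiff : ∀ g : GL (Fin 2) (ZMod l),
      (g : Matrix (Fin 2) (Fin 2) (ZMod l)).trace = (t : ZMod l) ↔ π g ∈ X)
    {k : ℕ} (hXk : Nat.card X ≤ l ^ k) (hshare : (Nat.card X : ℝ) / Nat.card G ≤ 3 / (l : ℝ))
    {N : ℕ} (hN : 2 ≤ N) :
    ((congCount W l t N).card : ℝ) ≤ 3 / (l : ℝ) * logInt N +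
      (A * (5 + ∑ p ∈ badPrimes W, Real.log p) + ((badPrimes W).card + 1)) *
        ((l : ℝ) ^ k * (1 + Real.log l) * (√(N : ℝ) * Real.log N ^ 4 + 1)) := by
  haveI : NeZero l := ⟨hl.out.ne_zero⟩
  obtain ⟨ρ, hρ⟩ : ∃ ρ, ρ = π.comp (FA.TraceDist.glLevel W l) := ⟨_, rfl⟩
  have hρs : Function.Surjective ρ := hρ ▸ hπ.comp hsurj
  have hle : (FA.TraceDist.glLevel W l).ker ≤ ρ.ker := fun σ hσ => by
    rw [MonoidHom.mem_ker] at hσ ⊢
    rw [hρ, MonoidHom.comp_apply, hσ, map_one]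
  obtain ⟨S, hS⟩ : ∃ S, S = insert l (badPrimes W) := ⟨_, rfl⟩
  have hSl : ∀ p : ℕ, p.Prime → p ∉ S → ¬ p ∣ l ∧ p ∉ badPrimes W := fun p hp hpS => by
    rw [hS, mem_insert, not_or] at hpS
    exact ⟨fun hd => hpS.1 ((Nat.prime_dvd_prime_iff_eq hp hl.out).1 hd), hpS.2⟩
  have h1 := hcount ρ (Subgroup.isOpen_mono hle FA.TraceDist.isOpen_ker_glLevel) hGRH S
    (fun p hp => by
      rw [hS, mem_insert] at hp
      rcases hp with rfl | hp
      exacts [hl.out, FA.CyclicRed.prime_of_mem_badPrimes W hp])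
    (fun p hp hpS B hB => (FA.CyclicRed.inertia_le_ker_glLevel W hp
      (FA.CyclicRed.good_of_not_mem hΔ hp (hSl p hp hpS).2).2 (hSl p hp hpS).1 hB).trans hle)
    X hX (fun p => p ∉ badPrimes W ∧ (W.apOfModel p : ZMod l) = (t : ZMod l))
    (fun p hp hpS B hB σ hσ => by
      obtain ⟨hpl, hbad⟩ := hSl p hp hpS
      rw [and_iff_right hbad, hρ, MonoidHom.comp_apply, ← hiff,
        ← (FA.TraceDist.repLevel_frobenius (W := W) (N := l) hp hpl
          (FA.CyclicRed.good_of_not_mem hΔ hp hbad).2 hB hσ).1]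
      exact Iff.rfl) N hN
  obtain ⟨hsh, hn⟩ := imageShare_of_surjective hρs X
  rw [hn, hsh] at h1
  have hG : 0 < Nat.card G := Nat.card_pos
  rw [div_mul_cancel₀ _ (Nat.cast_ne_zero.2 hG.ne')] at h1
  refine (le_of_eq_of_le (by rw [congCount]; congr!)
    (sub_le_iff_le_add.1 (abs_le.1 h1).2)).trans ?_
  obtain ⟨D, hD⟩ : ∃ D, D = ∑ p ∈ badPrimes W, Real.log p := ⟨_, rfl⟩
  rw [← hD]
  have hD0 : 0 ≤ D := hD ▸ sum_nonneg fun p _ => Real.log_natCast_nonneg p
  have hll : 0 ≤ Real.log l := Real.log_natCast_nonneg l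
  have hlog : Real.log (Nat.card G) ≤ 4 * Real.log l := by
    rw [show (4 : ℝ) = ((4 : ℕ) : ℝ) by norm_num, ← Real.log_pow]
    refine Real.log_le_log (Nat.cast_pos.2 hG) ?_
    rw [← Nat.cast_pow, Nat.cast_le]
    exact (Nat.card_le_card_of_surjective π hπ).trans (FA.CyclicRed.natCard_gl_le l)
  have hsum : ∑ p ∈ S, Real.log p ≤ Real.log l + D := by
    rw [hS, hD]
    by_cases hlb : l ∈ badPrimes W
    · rw [insert_eq_of_mem hlb]
      linarith
    · rw [sum_insert hlb]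
  have hcard : (S.card : ℝ) ≤ (badPrimes W).card + 1 := by
    rw [hS]
    exact_mod_cast card_insert_le l (badPrimes W)
  obtain ⟨R, hR⟩ : ∃ R, R = √(N : ℝ) * Real.log N ^ 4 := ⟨_, rfl⟩
  have hR0 : 0 ≤ R := hR ▸ mul_nonneg (Real.sqrt_nonneg _)
    (pow_nonneg (Real.log_natCast_nonneg N) 4)
  rw [← hR]
  obtain ⟨M, hM⟩ : ∃ M : ℝ, M = (l : ℝ) ^ k * (1 + Real.log l) := ⟨_, rfl⟩
  rw [← hM]
  have hXR : (Nat.card X : ℝ) ≤ (l : ℝ) ^ k := by exact_mod_cast hXk
  have hl1 : (1 : ℝ) ≤ (l : ℝ) ^ k := one_le_pow₀ (Nat.one_le_cast.2 hl.out.one_le)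
  have hM1 : 1 ≤ M := hM ▸ one_le_mul_of_one_le_of_one_le hl1 (by linarith)
  have h2 : (Nat.card X : ℝ) * (2 + Real.log (Nat.card G) + ∑ p ∈ S, Real.log p) ≤ M * (5 + D) := by
    rw [hM, mul_assoc]
    refine mul_le_mul hXR ?_ ?_ (by positivity)
    · nlinarith
    · have : 0 ≤ ∑ p ∈ S, Real.log p := sum_nonneg fun p _ => Real.log_natCast_nonneg p
      have := Real.log_natCast_nonneg (Nat.card G)
      linarith
  have h3 := mul_le_mul_of_nonneg_right (mul_le_mul_of_nonneg_left h2 hA) hR0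
  have h4 := mul_le_mul_of_nonneg_right hshare
    (FA.ArtinHooley.logInt_nonneg (x := (N : ℝ)) (by exact_mod_cast hN))
  have h5 : 1 ≤ M * (R + 1) := one_le_mul_of_one_le_of_one_le hM1 (by linarith)
  have h6 := mul_le_mul_of_nonneg_left h5 (show (0 : ℝ) ≤ (badPrimes W).card + 1 by positivity)
  have h7 : 0 ≤ A * (5 + D) * M := by positivity
  linarith

end FA.LangTrotterGRH

end
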